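import Mathlib

/-!
# Descent on `X₀(15)`

The rational points on `Y² = X (X - 9) (X - 25)` (the curve 15a1, a model of `X₀(15)`),
by an elementary infinite descent.
-/

set_option autoImplicit false

namespace Fermat.Agent.S51Lib

/-- The four-number lemma. -/
lemma four_number {p q P Q : ℤ} (hP : P ≠ 0) (h : P * Q = p * q) :
    ∃ α β γ δ : ℤ, p = α * β ∧ q = γ * δ ∧ P = α * γ ∧ Q = β * δ := by
  obtain ⟨α, γ, ⟨β, hβ⟩, ⟨δ, hδ⟩, hαγ⟩ := exists_dvd_and_dvd_of_dvd_mul (Dvd.intro Q h)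
  refine ⟨α, β, γ, δ, hβ, hδ, hαγ, ?_⟩
  have : P * Q = P * (β * δ) := by
    rw [h, hβ, hδ, hαγ]; ring
  exact mul_left_cancel₀ hP this

lemma sq_mod_eight_of_odd {x : ℤ} (h : x % 2 = 1) : x ^ 2 % 8 = 1 := by
  obtain ⟨k, hk⟩ : ∃ k, x = 2 * k + 1 := ⟨x / 2, by omega⟩
  obtain ⟨m, hm⟩ : ∃ m, k * (k + 1) = 2 * m := (Int.even_mul_succ_self k).two_dvd
  have : x ^ 2 = 8 * m + 1 := by
    rw [hk]; linear_combination 4 * hm
  omega

lemma sq_mod_four_of_even {x : ℤ} (h : x % 2 = 0) : x ^ 2 % 4 = 0 := by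
  obtain ⟨k, hk⟩ : ∃ k, x = 2 * k := ⟨x / 2, by omega⟩
  have : x ^ 2 = 4 * k ^ 2 := by rw [hk]; ring
  omega

/-- Common core of the two descent steps: if `B²(A²+D²) = C²(A²+16D²)` with suitable parity and
coprimality then `A² + D² = C²`, `A² + 16 D² = B²`. -/
lemma core {A B C D : ℤ} (hBC : IsCoprime B C) (hAD : IsCoprime A D)
    (hA : A % 2 = 1) (hB : B % 2 = 1) (hD : D % 2 = 0)
    (h : B ^ 2 * (A ^ 2 + D ^ 2) = C ^ 2 * (A ^ 2 + 16 * D ^ 2)) :
    A ^ 2 + D ^ 2 = C ^ 2 ∧ A ^ 2 + 16 * D ^ 2 = B ^ 2 := by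
  have hB0 : B ≠ 0 := by rintro rfl; simp at hB
  have hA0 : A ≠ 0 := by rintro rfl; simp at hA
  have h1 : B ^ 2 ∣ A ^ 2 + 16 * D ^ 2 := by
    have : B ^ 2 ∣ C ^ 2 * (A ^ 2 + 16 * D ^ 2) := Dvd.intro _ h
    exact (IsCoprime.pow hBC).dvd_of_dvd_mul_left this
  obtain ⟨k, hk⟩ := h1
  have hk2 : A ^ 2 + D ^ 2 = C ^ 2 * k := by
    have hB2 : B ^ 2 ≠ 0 := pow_ne_zero 2 hB0
    apply mul_left_cancel₀ hB2
    rw [h, hk]; ring
  have e1 : k ∣ 15 * D ^ 2 := ⟨B ^ 2 - C ^ 2, by linear_combination hk - hk2⟩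
  have e2 : k ∣ 15 * A ^ 2 := ⟨16 * C ^ 2 - B ^ 2, by linear_combination 16 * hk2 - hk⟩
  have e3 : k ∣ 15 := by
    obtain ⟨u, v, huv⟩ : IsCoprime (A ^ 2) (D ^ 2) := IsCoprime.pow hAD
    have : (15 : ℤ) = u * (15 * A ^ 2) + v * (15 * D ^ 2) := by linear_combination (-15) * huv
    rw [this]
    exact dvd_add (e2.mul_left u) (e1.mul_left v)
  have hkpos : 0 < k := by
    have hA2 : 0 < A ^ 2 := by positivity
    have hB2 : 0 < B ^ 2 := by positivity
    have : 0 < B ^ 2 * k := by rw [← hk]; positivity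
    exact (mul_pos_iff_of_pos_left hB2).mp this
  have hk8 : k % 8 = 1 := by
    have a1 := sq_mod_eight_of_odd hA
    have b1 := sq_mod_eight_of_odd hB
    have hd : (16 * D ^ 2) % 8 = 0 := by omega
    have h8 : (B ^ 2 * k) % 8 = 1 := by rw [← hk]; omega
    rw [Int.mul_emod, b1, one_mul, Int.emod_emod_of_dvd _ (dvd_refl _)] at h8
    exact h8
  have hkle : k ≤ 15 := Int.le_of_dvd (by norm_num) e3
  have hk1 : k = 1 := by
    interval_cases k <;> first | rfl | (exfalso; revert hk8; decide) | (exfalso; revert e3; decide)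
  subst hk1
  exact ⟨by rw [hk2]; ring, by rw [hk]; ring⟩

/-- A primitive Pythagorean triple with odd first leg. -/
lemma pyth {x y z : ℤ} (h : x ^ 2 + y ^ 2 = z ^ 2) (hc : IsCoprime x y) (hx : x % 2 = 1) :
    ∃ m n : ℤ, x = m ^ 2 - n ^ 2 ∧ y = 2 * m * n ∧ IsCoprime m n ∧
      (m % 2 = 0 ∧ n % 2 = 1 ∨ m % 2 = 1 ∧ n % 2 = 0) := by
  have hP : PythagoreanTriple x y z := by
    unfold PythagoreanTriple; linear_combination h
  obtain ⟨m, n, h1, h2, h3, h4⟩ := PythagoreanTriple.coprime_classification.mp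
    ⟨hP, Int.isCoprime_iff_gcd_eq_one.mp hc⟩
  rcases h1 with ⟨hx', hy'⟩ | ⟨hx', hy'⟩
  · exact ⟨m, n, hx', hy', Int.isCoprime_iff_gcd_eq_one.mpr h3, h4⟩
  · exfalso
    rw [hx', mul_assoc] at hx
    omega

lemma descent_aux (n : ℕ) : ∀ x y a b : ℤ, y.natAbs = n → IsCoprime x y → x % 2 = 1 →
    x ^ 2 + y ^ 2 = a ^ 2 → x ^ 2 + 16 * y ^ 2 = b ^ 2 → y = 0 := by
  induction n using Nat.strong_induction_on with
  | _ n ih =>
  -- reduce to `x ≡ 1 mod 4`
  have key : ∀ x y a b : ℤ, y.natAbs = n → IsCoprime x y → x % 4 = 1 →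
      x ^ 2 + y ^ 2 = a ^ 2 → x ^ 2 + 16 * y ^ 2 = b ^ 2 → y = 0 := by
    intro x y a b hn hco hx hxa hxb
    by_contra hy0
    have hx2 : x % 2 = 1 := by omega
    have hx4y : IsCoprime x (4 * y) := by
      refine IsCoprime.mul_right ?_ hco
      have : IsCoprime x 2 := by
        refine ⟨1, -(x / 2), ?_⟩
        omega
      have := IsCoprime.pow_right (n := 2) this
      norm_num at this
      exact this
    obtain ⟨p, q, hp1, hp2, hp3, hp4⟩ := pyth hxa hco hx2
    obtain ⟨P, Q, hP1, hP2, hP3, hP4⟩ := pyth (x := x) (y := 4 * y) (z := b)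
      (by linear_combination hxb) hx4y hx2
    have hpq : p % 2 = 1 ∧ q % 2 = 0 := by
      rcases hp4 with h | h
      · exfalso
        have h1 := sq_mod_four_of_even h.1
        have h2 := sq_mod_eight_of_odd h.2
        omega
      · exact h
    have hPQ : P % 2 = 1 ∧ Q % 2 = 0 := by
      rcases hP4 with h | h
      · exfalso
        have h1 := sq_mod_four_of_even h.1
        have h2 := sq_mod_eight_of_odd h.2
        omega
      · exact h
    have hPQ4 : P * Q = 4 * (p * q) := by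
      have : 2 * (P * Q) = 2 * (4 * (p * q)) := by
        linear_combination (-1) * hP2 + 4 * hp2
      linarith
    have hQ4 : (4 : ℤ) ∣ Q := by
      have h4P : IsCoprime (4 : ℤ) P := by
        have : IsCoprime (2 : ℤ) P := by
          refine ⟨-(P / 2), 1, ?_⟩
          omega
        have := IsCoprime.pow_left (m := 2) this
        norm_num at this
        exact this
      exact h4P.dvd_of_dvd_mul_left (Dvd.intro _ hPQ4.symm)
    obtain ⟨Q', hQ'⟩ := hQ4
    have hPQ' : P * Q' = p * q := by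
      have : 4 * (P * Q') = 4 * (p * q) := by rw [← hPQ4, hQ']; ring
      linarith
    have hP0 : P ≠ 0 := by rintro rfl; simp at hPQ
    obtain ⟨α, β, γ, δ, h1, h2, h3, h4⟩ := four_number hP0 hPQ'
    have hβγ : IsCoprime β γ := by
      rw [h1, h2] at hp3
      exact (hp3.of_mul_left_right).of_mul_right_left
    have hαδ : IsCoprime α δ := by
      rw [h1, h2] at hp3
      exact (hp3.of_mul_left_left).of_mul_right_right
    have hα : α % 2 = 1 := by
      have : (α * β) % 2 = 1 := by rw [← h1]; exact hpq.1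
      rcases Int.emod_two_eq_zero_or_one α with h | h
      · rw [Int.mul_emod, h] at this; simp at this
      · exact h
    have hγ : γ % 2 = 1 := by
      have : (α * γ) % 2 = 1 := by rw [← h3]; exact hPQ.1
      rcases Int.emod_two_eq_zero_or_one γ with h | h
      · rw [Int.mul_emod, h] at this; simp at this
      · exact h
    have hδ : δ % 2 = 0 := by
      have : (γ * δ) % 2 = 0 := by rw [← h2]; exact hpq.2
      rw [Int.mul_emod, hγ, one_mul] at this
      omega
    have hmain : γ ^ 2 * (α ^ 2 + δ ^ 2) = β ^ 2 * (α ^ 2 + 16 * δ ^ 2) := by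
      have e : p ^ 2 - q ^ 2 = P ^ 2 - Q ^ 2 := by rw [← hp1, ← hP1]
      rw [hQ', h1, h2, h3, h4] at e
      linear_combination (-1) * e
    obtain ⟨c1, c2⟩ := core hβγ.symm hαδ hα hγ hδ hmain
    have hlt : δ.natAbs < n := by
      have hyn : y.natAbs = 2 * (α.natAbs * β.natAbs) * (γ.natAbs * δ.natAbs) := by
        rw [hp2, h1, h2]; simp [Int.natAbs_mul]
      have hne : y.natAbs ≠ 0 := by simpa using hy0
      rw [← hn, hyn]
      rw [hyn] at hne
      have hα0 : 1 ≤ α.natAbs := by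
        rcases Nat.eq_zero_or_pos α.natAbs with h | h
        · rw [h] at hne; simp at hne
        · exact h
      have hβ0 : 1 ≤ β.natAbs := by
        rcases Nat.eq_zero_or_pos β.natAbs with h | h
        · rw [h] at hne; simp at hne
        · exact h
      have hγ0 : 1 ≤ γ.natAbs := by
        rcases Nat.eq_zero_or_pos γ.natAbs with h | h
        · rw [h] at hne; simp at hne
        · exact h
      have hδ0 : 1 ≤ δ.natAbs := by
        rcases Nat.eq_zero_or_pos δ.natAbs with h | h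
        · rw [h] at hne; simp at hne
        · exact h
      have a1 : 1 ≤ α.natAbs * β.natAbs := Nat.mul_le_mul hα0 hβ0
      have a2 : δ.natAbs ≤ γ.natAbs * δ.natAbs := Nat.le_mul_of_pos_left _ hγ0
      nlinarith
    have hδ0 := ih δ.natAbs hlt α δ β γ rfl hαδ hα c1 c2
    apply hy0
    rw [hp2, h2, hδ0]; ring
  intro x y a b hn hco hx hxa hxb
  rcases (by omega : x % 4 = 1 ∨ (-x) % 4 = 1) with h | h
  · exact key x y a b hn hco h hxa hxb
  · exact key (-x) y a b hn hco.neg_left h (by linear_combination hxa) (by linear_combination hxb)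

/-- The numbers `1, 16` are "discordant": `x² + y²` and `x² + 16 y²` are not both squares
(`x` odd, coprime to `y`) unless `y = 0`. -/
theorem discordant {x y a b : ℤ} (hco : IsCoprime x y) (hx : x % 2 = 1)
    (ha : x ^ 2 + y ^ 2 = a ^ 2) (hb : x ^ 2 + 16 * y ^ 2 = b ^ 2) : y = 0 :=
  descent_aux _ x y a b rfl hco hx ha hb

/-- Case `r` odd of the quartic `r⁴ - 7r²s² + 16s⁴ = z²`. -/
lemma quartic_odd {r s z : ℤ} (hco : IsCoprime r s) (hr : r % 2 = 1)
    (h : r ^ 4 - 7 * r ^ 2 * s ^ 2 + 16 * s ^ 4 = z ^ 2) : s = 0 := by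
  have hr0 : r ≠ 0 := by rintro rfl; simp at hr
  have h4r : IsCoprime (4 : ℤ) r := by
    have : IsCoprime (2 : ℤ) r := ⟨-(r / 2), 1, by omega⟩
    have := IsCoprime.pow_left (m := 2) this
    norm_num at this
    exact this
  have hc1 : IsCoprime (r ^ 2 - 4 * s ^ 2) (r * s) := by
    refine IsCoprime.mul_right ?_ ?_
    · have : IsCoprime (4 * s ^ 2) r := IsCoprime.mul_left h4r (hco.symm.pow_left)
      have h2 : IsCoprime (-(4 * s ^ 2) + r * r) r := (this.neg_left).add_mul_left_left r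
      have e : -(4 * s ^ 2) + r * r = r ^ 2 - 4 * s ^ 2 := by ring
      rwa [e] at h2
    · have h2 : IsCoprime (r ^ 2 + s * (-(4 * s))) s := (hco.pow_left).add_mul_left_left _
      have e : r ^ 2 + s * (-(4 * s)) = r ^ 2 - 4 * s ^ 2 := by ring
      rwa [e] at h2
  have hodd : (r ^ 2 - 4 * s ^ 2) % 2 = 1 := by
    have := sq_mod_eight_of_odd hr
    omega
  obtain ⟨m, n, h1, h2, h3, h4⟩ := pyth (x := r ^ 2 - 4 * s ^ 2) (y := r * s) (z := z)
    (by linear_combination h) hc1 hodd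
  have hs2 : s % 2 = 0 := by
    have : (r * s) % 2 = 0 := by rw [h2, mul_assoc]; simp
    rw [Int.mul_emod, hr, one_mul] at this
    omega
  obtain ⟨t, ht⟩ : ∃ t, s = 2 * t := ⟨s / 2, by omega⟩
  have hmn : m % 2 = 1 ∧ n % 2 = 0 := by
    rcases h4 with h' | h'
    · exfalso
      have e1 := sq_mod_four_of_even h'.1
      have e2 := sq_mod_eight_of_odd h'.2
      have e3 := sq_mod_eight_of_odd hr
      have e4 := sq_mod_four_of_even hs2
      omega
    · exact h'
  have hrt : m * n = r * t := by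
    have : 2 * (m * n) = 2 * (r * t) := by rw [← mul_assoc, ← h2, ht]; ring
    linarith
  have hm0 : m ≠ 0 := by rintro rfl; simp at hmn
  obtain ⟨A, B, C, D, k1, k2, k3, k4⟩ := four_number hm0 hrt
  have hrt' : IsCoprime r t := by rw [ht] at hco; exact hco.of_mul_right_right
  have hBC : IsCoprime B C := by
    rw [k1, k2] at hrt'
    exact (hrt'.of_mul_left_right).of_mul_right_left
  have hAD : IsCoprime A D := by
    rw [k1, k2] at hrt'
    exact (hrt'.of_mul_left_left).of_mul_right_right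
  have odd_of {a b c : ℤ} (h : c = a * b) (hc : c % 2 = 1) : a % 2 = 1 ∧ b % 2 = 1 := by
    rw [h, Int.mul_emod] at hc
    rcases Int.emod_two_eq_zero_or_one a with h' | h' <;>
    rcases Int.emod_two_eq_zero_or_one b with h'' | h'' <;> simp [h', h''] at hc ⊢
  have hA := (odd_of k1 hr).1
  have hB := (odd_of k1 hr).2
  have hC := (odd_of k3 hmn.1).2
  have hn8 : n ^ 2 % 8 = 0 := by
    have e1 := sq_mod_eight_of_odd hmn.1
    have e3 := sq_mod_eight_of_odd hr
    have e5 : r ^ 2 - 16 * t ^ 2 = m ^ 2 - n ^ 2 := by rw [← h1, ht]; ring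
    omega
  have hD : D % 2 = 0 := by
    have : (B * D) % 2 = 0 := by rw [← k4]; exact hmn.2
    rw [Int.mul_emod, hB, one_mul] at this
    omega
  have hmain : B ^ 2 * (A ^ 2 + D ^ 2) = C ^ 2 * (A ^ 2 + 16 * D ^ 2) := by
    have e5 : r ^ 2 - 16 * t ^ 2 = m ^ 2 - n ^ 2 := by rw [← h1, ht]; ring
    rw [k1, k2, k3, k4] at e5
    linear_combination e5
  obtain ⟨c1, c2⟩ := core hBC hAD hA hB hD hmain
  have hD0 := discordant hAD hA c1 c2
  rw [ht, k2, hD0]; ring

/-- Integer solutions of `r⁴ - 7r²s² + 16s⁴ = z²`. -/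
lemma quartic_int {r s z : ℤ} (hco : IsCoprime r s)
    (h : r ^ 4 - 7 * r ^ 2 * s ^ 2 + 16 * s ^ 4 = z ^ 2) :
    s = 0 ∨ r = 0 ∨ r ^ 2 = 4 * s ^ 2 := by
  rcases Int.emod_two_eq_zero_or_one r with hr | hr
  · -- `r` even, hence `s` odd
    obtain ⟨r', hr'⟩ : ∃ t, r = 2 * t := ⟨r / 2, by omega⟩
    have hs : s % 2 = 1 := by
      rcases Int.emod_two_eq_zero_or_one s with hs | hs
      · exfalso
        have := hco.isUnit_of_dvd' (x := 2) (Int.dvd_of_emod_eq_zero hr)
          (Int.dvd_of_emod_eq_zero hs)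
        revert this; decide
      · exact hs
    have hz : z % 2 = 0 := by
      rcases Int.emod_two_eq_zero_or_one z with hz | hz
      · exact hz
      · exfalso
        have := sq_mod_eight_of_odd hz
        have e : z ^ 2 = 2 * (8 * r' ^ 4 - 14 * r' ^ 2 * s ^ 2 + 8 * s ^ 4) := by
          rw [← h, hr']; ring
        omega
    obtain ⟨z', hz'⟩ : ∃ t, z = 2 * t := ⟨z / 2, by omega⟩
    have h' : 4 * r' ^ 4 - 7 * r' ^ 2 * s ^ 2 + 4 * s ^ 4 = z' ^ 2 := by
      have : 4 * (4 * r' ^ 4 - 7 * r' ^ 2 * s ^ 2 + 4 * s ^ 4) = 4 * z' ^ 2 := by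
        rw [hr', hz'] at h; linear_combination h
      linarith
    have hco' : IsCoprime r' s := by rw [hr'] at hco; exact hco.of_mul_left_right
    rcases Int.emod_two_eq_zero_or_one r' with hr2 | hr2
    · -- `4 ∣ r`
      obtain ⟨r'', hr''⟩ : ∃ t, r' = 2 * t := ⟨r' / 2, by omega⟩
      have hz2 : z' % 2 = 0 := by
        rcases Int.emod_two_eq_zero_or_one z' with hz | hz
        · exact hz
        · exfalso
          have := sq_mod_eight_of_odd hz
          have e : z' ^ 2 = 2 * (32 * r'' ^ 4 - 14 * r'' ^ 2 * s ^ 2 + 2 * s ^ 4) := by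
            rw [← h', hr'']; ring
          omega
      obtain ⟨z'', hz''⟩ : ∃ t, z' = 2 * t := ⟨z' / 2, by omega⟩
      have h'' : s ^ 4 - 7 * s ^ 2 * r'' ^ 2 + 16 * r'' ^ 4 = z'' ^ 2 := by
        have : 4 * (s ^ 4 - 7 * s ^ 2 * r'' ^ 2 + 16 * r'' ^ 4) = 4 * z'' ^ 2 := by
          rw [hr'', hz''] at h'; linear_combination h'
        linarith
      have hco'' : IsCoprime r'' s := by rw [hr''] at hco'; exact hco'.of_mul_left_right
      have := quartic_odd hco''.symm hs h''
      right; left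
      rw [hr', hr'', this]; ring
    · -- `r'` odd
      right; right
      obtain ⟨c, hc⟩ : ∃ c, r' + s = 2 * c := ⟨(r' + s) / 2, by omega⟩
      have hd : r' - s = 2 * (c - s) := by linear_combination hc
      set d := c - s with hd_def
      have hr'cd : r' = c + d := by linarith
      have hscd : s = c - d := by rw [hd_def]; ring
      have hcd : IsCoprime c d := by
        obtain ⟨u, v, huv⟩ := hco'
        refine ⟨u + v, u - v, ?_⟩
        rw [hr'cd, hscd] at huv
        linear_combination huv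
      have hquart : (c ^ 2 - d ^ 2) ^ 2 + 16 * (2 * c * d) ^ 2 = z' ^ 2 := by
        rw [← h', hr'cd, hscd]; ring
      have hx : (c ^ 2 - d ^ 2) % 2 = 1 := by
        have : c ^ 2 - d ^ 2 = r' * s := by rw [hr'cd, hscd]; ring
        rw [this, Int.mul_emod, hr2, hs]; norm_num
      have hxy : IsCoprime (c ^ 2 - d ^ 2) (2 * c * d) := by
        refine IsCoprime.mul_right (IsCoprime.mul_right ?_ ?_) ?_
        · exact ⟨1, -((c ^ 2 - d ^ 2) / 2), by omega⟩
        · have h2 : IsCoprime (-d ^ 2 + c * c) c := 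
            ((hcd.symm.pow_left (m := 2)).neg_left).add_mul_left_left c
          have e : -d ^ 2 + c * c = c ^ 2 - d ^ 2 := by ring
          rwa [e] at h2
        · have h2 : IsCoprime (c ^ 2 + d * (-d)) d := (hcd.pow_left).add_mul_left_left _
          have e : c ^ 2 + d * (-d) = c ^ 2 - d ^ 2 := by ring
          rwa [e] at h2
      have h0 := discordant hxy hx (a := c ^ 2 + d ^ 2) (b := z') (by ring) hquart
      have hcd0 : c * d = 0 := by linarith
      rw [hr', hr'cd, hscd]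
      linear_combination 16 * hcd0
  · left
    exact quartic_odd hco hr h

/-- Rational solutions of `ρ⁴ - 7ρ² + 16 = τ²` (points on `X₁(15)`). -/
lemma quartic_rat {ρ τ : ℚ} (h : ρ ^ 4 - 7 * ρ ^ 2 + 16 = τ ^ 2) : ρ = 0 ∨ ρ ^ 2 = 4 := by
  have hs0 : (ρ.den : ℚ) ≠ 0 := by exact_mod_cast ρ.den_ne_zero
  have hρ : ρ = (ρ.num : ℚ) / (ρ.den : ℚ) := (Rat.num_div_den ρ).symm
  have hco : IsCoprime ρ.num (ρ.den : ℤ) := Rat.isCoprime_num_den ρ
  set r : ℤ := ρ.num with hr
  set s : ℤ := (ρ.den : ℤ) with hs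
  have hsQ : (s : ℚ) = (ρ.den : ℚ) := by rw [hs]; push_cast; rfl
  have hs0' : (s : ℚ) ≠ 0 := by rw [hsQ]; exact hs0
  have h1 : ((r ^ 4 - 7 * r ^ 2 * s ^ 2 + 16 * s ^ 4 : ℤ) : ℚ) = (τ * s ^ 2) ^ 2 := by
    rw [← hsQ] at hρ
    push_cast
    rw [mul_pow, ← h, hρ]
    field_simp
  -- `τ s²` is a rational whose square is an integer, hence an integer
  obtain ⟨z, hz⟩ : ∃ z : ℤ, (z : ℚ) = τ * s ^ 2 := by
    have hint : IsIntegral ℤ (τ * (s : ℚ) ^ 2) := by
      refine IsIntegral.of_pow (n := 2) (by norm_num) ?_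
      rw [← h1]
      exact isIntegral_algebraMap (R := ℤ) (A := ℚ)
    exact IsIntegrallyClosed.isIntegral_iff.mp hint
  rw [← hz] at h1
  have h2 : r ^ 4 - 7 * r ^ 2 * s ^ 2 + 16 * s ^ 4 = z ^ 2 := by exact_mod_cast h1
  have hsne : s ≠ 0 := by rw [hs]; exact_mod_cast ρ.den_ne_zero
  rcases quartic_int hco h2 with h3 | h3 | h3
  · exact absurd h3 hsne
  · left; rw [hρ]; simp [h3]
  · right
    have h3' : (r : ℚ) ^ 2 = 4 * s ^ 2 := by exact_mod_cast h3
    rw [hρ, ← hsQ, div_pow, h3']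
    field_simp

/-- The affine rational points on the curve 15a1: `Y² = X (X - 9) (X - 25)`. -/
theorem points_15a1 {X Y : ℚ} (h : Y ^ 2 = X * (X - 9) * (X - 25)) :
    X = 0 ∨ X = 9 ∨ X = 25 ∨ X = 45 ∨ X = 5 := by
  by_cases hX0 : X = 0
  · exact Or.inl hX0
  have hX15 : X - 15 ≠ 0 := by
    intro h15
    have : X = 15 := by linarith
    rw [this] at h
    nlinarith [sq_nonneg Y]
  have hX15' : X + 15 ≠ 0 := by
    intro h15
    have : X = -15 := by linarith
    rw [this] at h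
    nlinarith [sq_nonneg Y]
  set ρ : ℚ := Y * (X + 15) / (4 * X * (X - 15)) with hρ
  have hρ2 : ρ ^ 2 * (16 * X * (X - 15) ^ 2) = (X - 9) * (X - 25) * (X + 15) ^ 2 := by
    rw [hρ]
    field_simp
    rw [h]; ring
  set x3 : ℚ := (X - 15) ^ 2 / (4 * X) with hx3
  have hx3' : x3 ≠ 0 := by
    rw [hx3]; positivity
  have hq : ρ ^ 4 - 7 * ρ ^ 2 + 16 = ((x3 ^ 2 + 15) / (4 * x3)) ^ 2 := by
    have e1 : ρ ^ 2 = (X - 9) * (X - 25) * (X + 15) ^ 2 / (16 * X * (X - 15) ^ 2) := by
      rw [eq_div_iff (by positivity)]; exact hρ2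
    have e2 : ρ ^ 4 = (ρ ^ 2) ^ 2 := by ring
    rw [e2, e1, hx3]
    field_simp
    ring
  rcases quartic_rat hq with h0 | h4
  · rw [h0] at hρ2
    have h5 : (X - 9) * (X - 25) = 0 := by
      have : (X - 9) * (X - 25) * (X + 15) ^ 2 = 0 := by rw [← hρ2]; ring
      rcases mul_eq_zero.mp this with h | h
      · exact h
      · exact absurd (pow_eq_zero_iff (by norm_num) |>.mp h) hX15'
    rcases mul_eq_zero.mp h5 with h | h
    · right; left; linarith
    · right; right; left; linarith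
  · rw [h4] at hρ2
    have h6 : (X ^ 2 - 50 * X + 225) * (X ^ 2 - 18 * X + 225) = 0 := by
      linear_combination (-1) * hρ2
    rcases mul_eq_zero.mp h6 with h | h
    · have : (X - 45) * (X - 5) = 0 := by linear_combination h
      rcases mul_eq_zero.mp this with h | h
      · right; right; right; left; linarith
      · right; right; right; right; linarith
    · exfalso
      nlinarith [sq_nonneg (X - 9)]

end Fermat.Agent.S51Lib
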