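import Mathlib
import Fermat.Agent.S51Lib.Descent

/-!
# From a rational 3-isogeny and a rational 5-isogeny to a point on `X₀(15)`
-/

set_option autoImplicit false

namespace Fermat.Agent.S51Lib

/-- The four possible relations between `c₄³` and `Δ` for a curve over `ℚ` with a rational
`15`-isogeny. -/
def JRel {F : Type*} [CommRing F] (c₄ Δ : F) : Prop :=
  2 * c₄ ^ 3 = -25 * Δ ∨ 8 * c₄ ^ 3 = -25 * 241 ^ 3 * Δ ∨
    32 * c₄ ^ 3 = -5 * 29 ^ 3 * Δ ∨ 2 ^ 15 * c₄ ^ 3 = 5 * 211 ^ 3 * Δ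

/-- Normalised version: the `3`-torsion point has `x`-coordinate `0`. -/
lemma jrel_of_shifted {b₂ b₄ b₆ S P : ℚ} (h8 : b₂ * b₆ = b₄ ^ 2) (hP : P ≠ 0)
    (hSP : S ^ 2 ≠ 4 * P) (hΔ : b₄ ^ 3 - 27 * b₆ ^ 2 ≠ 0)
    (hI : S ^ 3 - 6 * P * S - b₄ * S - b₂ * P - b₆ = 0)
    (hIII : b₆ * S = P * (5 * P - S ^ 2 - b₄)) :
    JRel (b₂ ^ 2 - 24 * b₄) (b₄ ^ 3 - 27 * b₆ ^ 2) := by
  by_cases hS : S = 0
  · -- `S = 0`
    subst hS
    have hb4 : b₄ = 5 * P := by
      have : P * (5 * P - b₄) = 0 := by linear_combination (-1) * hIII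
      rcases mul_eq_zero.mp this with h | h
      · exact absurd h hP
      · linarith
    have hb6 : b₆ = -(b₂ * P) := by linear_combination (-1) * hI
    have hP' : P = -(b₂ ^ 2 / 25) := by
      have : P * (b₂ ^ 2 + 25 * P) = 0 := by
        rw [hb4, hb6] at h8; linear_combination (-1) * h8
      rcases mul_eq_zero.mp this with h | h
      · exact absurd h hP
      · linarith
    right; right; left
    rw [hb6, hb4, hP']; ring
  · have hK : b₆ ^ 2 + b₆ * P * S + P * (S ^ 2 - 5 * P) ^ 2 = 0 := by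
      linear_combination (-P) * h8 + (-b₆) * hI + (S ^ 2 - 5 * P - b₄) * hIII
    have hcurve : (100 * (2 * b₆ + P * S) / S ^ 3) ^ 2 =
        (25 - 100 * P / S ^ 2) * ((25 - 100 * P / S ^ 2) - 9) * ((25 - 100 * P / S ^ 2) - 25) := by
      field_simp
      linear_combination 40000 * hK
    have hb4 : b₄ = 5 * P - S ^ 2 - b₆ * S / P := by
      field_simp
      linear_combination hIII
    have hb2 : b₂ = (S ^ 3 - 6 * P * S - b₄ * S - b₆) / P := by
      field_simp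
      linear_combination (-1) * hI
    rcases points_15a1 hcurve with h | h | h | h | h
    · exfalso
      apply hSP
      field_simp at h
      linarith
    · -- q = 4/25
      have hPS : P = 4 * S ^ 2 / 25 := by field_simp at h; linarith
      have hb6 : b₆ = -2 * S ^ 3 / 25 := by
        rw [h] at hcurve
        have h0 : 100 * (2 * b₆ + P * S) / S ^ 3 = 0 := by
          rw [← sq_eq_zero_iff]; rw [hcurve]; ring
        rw [div_eq_zero_iff] at h0
        rcases h0 with h0 | h0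
        · rw [hPS] at h0; linarith
        · exact absurd (pow_eq_zero_iff (by norm_num) |>.mp h0) hS
      have hb4' : b₄ = 3 / 10 * S ^ 2 := by
        rw [hb4, hb6, hPS]; field_simp; ring
      have hb2' : b₂ = -9 / 8 * S := by
        rw [hb2, hb4', hb6, hPS]; field_simp; ring
      right; right; right
      rw [hb2', hb4', hb6]; ring
    · exfalso
      apply hP
      field_simp at h
      linarith
    · -- q = -1/5
      have hPS : P = -S ^ 2 / 5 := by field_simp at h; linarith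
      have h0 : (b₆ - S ^ 3) * (b₆ + 4 / 5 * S ^ 3) = 0 := by
        rw [hPS] at hK; linear_combination hK
      rcases mul_eq_zero.mp h0 with h0 | h0
      · exfalso
        have hb6 : b₆ = S ^ 3 := by linarith
        have hb4' : b₄ = 3 * S ^ 2 := by
          rw [hb4, hb6, hPS]; field_simp; ring
        apply hΔ
        rw [hb4', hb6]; ring
      · have hb6 : b₆ = -4 / 5 * S ^ 3 := by linarith
        have hb4' : b₄ = -6 * S ^ 2 := by
          rw [hb4, hb6, hPS]; field_simp; ring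
        have hb2' : b₂ = -45 * S := by
          rw [hb2, hb4', hb6, hPS]; field_simp; ring
        right; left
        rw [hb2', hb4', hb6]; ring
    · -- q = 1/5
      have hPS : P = S ^ 2 / 5 := by field_simp at h; linarith
      have h0 : b₆ * (b₆ + 1 / 5 * S ^ 3) = 0 := by
        rw [hPS] at hK; linear_combination hK
      rcases mul_eq_zero.mp h0 with h0 | h0
      · exfalso
        have hb4' : b₄ = 0 := by
          rw [h0] at h8
          exact pow_eq_zero_iff (n := 2) (by norm_num) |>.mp (by linarith)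
        apply hΔ
        rw [hb4', h0]; ring
      · have hb6 : b₆ = -1 / 5 * S ^ 3 := by linarith
        have hb4' : b₄ = S ^ 2 := by
          rw [hb4, hb6, hPS]; field_simp; ring
        have hb2' : b₂ = -5 * S := by
          rw [hb2, hb4', hb6, hPS]; field_simp; ring
        left
        rw [hb2', hb4', hb6]; ring

/-- General version. `x₀` is the `x`-coordinate of a rational `3`-torsion line, and `x₁, x₂`
(in some extension) are the two `x`-coordinates of a rational `5`-torsion line. -/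
lemma jrel_of_isogenies (W : WeierstrassCurve ℚ) (hΔ : W.Δ ≠ 0) {K : Type*} [Field K]
    (f : ℚ →+* K) {x₀ s p : ℚ} {x₁ x₂ : K} (hs : f s = x₁ + x₂) (hp : f p = x₁ * x₂)
    (h3 : 3 * x₀ ^ 4 + W.b₂ * x₀ ^ 3 + 3 * W.b₄ * x₀ ^ 2 + 3 * W.b₆ * x₀ + W.b₈ = 0)
    (h10 : x₁ ≠ f x₀) (h20 : x₂ ≠ f x₀) (h12 : x₁ ≠ x₂)
    (hD1 : x₂ * (4 * x₁ ^ 3 + f W.b₂ * x₁ ^ 2 + 2 * f W.b₄ * x₁ + f W.b₆) =
      x₁ ^ 4 - f W.b₄ * x₁ ^ 2 - 2 * f W.b₆ * x₁ - f W.b₈)
    (hD2 : x₁ * (4 * x₂ ^ 3 + f W.b₂ * x₂ ^ 2 + 2 * f W.b₄ * x₂ + f W.b₆) =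
      x₂ ^ 4 - f W.b₄ * x₂ ^ 2 - 2 * f W.b₆ * x₂ - f W.b₈) :
    JRel W.c₄ W.Δ := by
  have finj := f.injective
  -- shifted quantities
  set b₂ : ℚ := W.b₂ + 12 * x₀ with hb₂
  set b₄ : ℚ := W.b₄ + x₀ * W.b₂ + 6 * x₀ ^ 2 with hb₄
  set b₆ : ℚ := W.b₆ + 2 * x₀ * W.b₄ + x₀ ^ 2 * W.b₂ + 4 * x₀ ^ 3 with hb₆
  set S : ℚ := s - 2 * x₀ with hS
  set P : ℚ := p - x₀ * s + x₀ ^ 2 with hP
  have hrel := W.b_relation
  have h8 : b₂ * b₆ = b₄ ^ 2 := by
    rw [hb₂, hb₆, hb₄]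
    linear_combination (-1) * hrel + 4 * h3
  have hc4 : W.c₄ = b₂ ^ 2 - 24 * b₄ := by
    rw [hb₂, hb₄, WeierstrassCurve.c₄]; ring
  have hΔ' : W.Δ = b₄ ^ 3 - 27 * b₆ ^ 2 := by
    have e := W.variableChange_Δ ⟨1, x₀, 0, 0⟩
    have e2 := W.variableChange_b₂ ⟨1, x₀, 0, 0⟩
    have e4 := W.variableChange_b₄ ⟨1, x₀, 0, 0⟩
    have e6 := W.variableChange_b₆ ⟨1, x₀, 0, 0⟩
    have e8 := W.variableChange_b₈ ⟨1, x₀, 0, 0⟩
    simp only [inv_one, Units.val_one, one_pow, one_mul] at e e2 e4 e6 e8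
    rw [← hb₂] at e2
    rw [← hb₄] at e4
    rw [← hb₆] at e6
    have e8' : ((⟨1, x₀, 0, 0⟩ : WeierstrassCurve.VariableChange ℚ) • W).b₈ = 0 := by
      rw [e8]; linear_combination h3
    rw [← e, WeierstrassCurve.Δ, e2, e4, e6, e8']
    linear_combination 9 * b₄ * h8
  have hfP : f P = (x₁ - f x₀) * (x₂ - f x₀) := by
    rw [hP]; simp only [map_add, map_sub, map_mul, map_pow, hs, hp]; ring
  have hfS : f S = (x₁ - f x₀) + (x₂ - f x₀) := by
    rw [hS]; simp only [map_sub, map_mul, hs, map_ofNat]; ring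
  have hx12 : x₁ - x₂ ≠ 0 := sub_ne_zero.mpr h12
  have hP0 : P ≠ 0 := by
    intro h
    rw [h, map_zero] at hfP
    rcases mul_eq_zero.mp hfP.symm with h | h
    · exact h10 (sub_eq_zero.mp h)
    · exact h20 (sub_eq_zero.mp h)
  have hSP : S ^ 2 ≠ 4 * P := by
    intro h
    have : f S ^ 2 = 4 * f P := by
      rw [← map_pow, h]; simp only [map_mul, map_ofNat]
    rw [hfS, hfP] at this
    have h0 : (x₁ - x₂) ^ 2 = 0 := by linear_combination this
    exact hx12 (pow_eq_zero_iff (by norm_num) |>.mp h0)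
  have e2 : f b₂ = f W.b₂ + 12 * f x₀ := by
    rw [hb₂]; simp only [map_add, map_mul, map_pow, map_ofNat]
  have e4 : f b₄ = f W.b₄ + f x₀ * f W.b₂ + 6 * f x₀ ^ 2 := by
    rw [hb₄]; simp only [map_add, map_mul, map_pow, map_ofNat]
  have e6 : f b₆ = f W.b₆ + 2 * f x₀ * f W.b₄ + f x₀ ^ 2 * f W.b₂ + 4 * f x₀ ^ 3 := by
    rw [hb₆]; simp only [map_add, map_mul, map_pow, map_ofNat]
  have h3' : 3 * f x₀ ^ 4 + f W.b₂ * f x₀ ^ 3 + 3 * f W.b₄ * f x₀ ^ 2 + 3 * f W.b₆ * f x₀ + f W.b₈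
      = 0 := by
    have := congrArg f h3
    simpa only [map_add, map_mul, map_pow, map_ofNat, map_zero] using this
  -- shifted doubling relations
  set y₁ := x₁ - f x₀ with hy₁
  set y₂ := x₂ - f x₀ with hy₂
  have hx₁ : x₁ = y₁ + f x₀ := by rw [hy₁]; ring
  have hx₂ : x₂ = y₂ + f x₀ := by rw [hy₂]; ring
  have hy12 : y₁ - y₂ ≠ 0 := by rw [hy₁, hy₂]; simpa using hx12
  have D1 : y₂ * (4 * y₁ ^ 3 + f b₂ * y₁ ^ 2 + 2 * f b₄ * y₁ + f b₆) =
      y₁ ^ 4 - f b₄ * y₁ ^ 2 - 2 * f b₆ * y₁ := by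
    rw [hx₁, hx₂] at hD1
    rw [e2, e4, e6]
    linear_combination hD1 - h3'
  have D2 : y₁ * (4 * y₂ ^ 3 + f b₂ * y₂ ^ 2 + 2 * f b₄ * y₂ + f b₆) =
      y₂ ^ 4 - f b₄ * y₂ ^ 2 - 2 * f b₆ * y₂ := by
    rw [hx₁, hx₂] at hD2
    rw [e2, e4, e6]
    linear_combination hD2 - h3'
  have hI : S ^ 3 - 6 * P * S - b₄ * S - b₂ * P - b₆ = 0 := by
    apply finj
    simp only [map_sub, map_mul, map_pow, map_ofNat, map_zero, hfS, hfP]
    apply mul_left_cancel₀ hy12
    rw [mul_zero]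
    linear_combination D2 - D1
  have hIII : b₆ * S = P * (5 * P - S ^ 2 - b₄) := by
    apply finj
    simp only [map_sub, map_mul, map_pow, map_ofNat, hfS, hfP]
    have hI' : (y₁ + y₂) ^ 3 - 6 * (y₁ * y₂) * (y₁ + y₂) - f b₄ * (y₁ + y₂) - f b₂ * (y₁ * y₂)
        - f b₆ = 0 := by
      have := congrArg f hI
      simp only [map_sub, map_mul, map_pow, map_ofNat, map_zero, hfS, hfP] at this
      exact this
    have h2 : (2 : K) ≠ 0 := by
      have : f 2 ≠ 0 := by rw [map_ne_zero]; norm_num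
      simpa only [map_ofNat] using this
    apply mul_left_cancel₀ h2
    linear_combination D1 + D2 + (y₁ + y₂) * hI'
  rw [hc4, hΔ']
  exact jrel_of_shifted h8 hP0 hSP (by rw [← hΔ']; exact hΔ) hI hIII

/-- The relations contradict semistability at `5`. -/
lemma not_jrel {c₄ Δ : ℤ} (h5 : (5 : ℤ) ∣ Δ → ¬ (5 : ℤ) ∣ c₄) :
    ¬ JRel (c₄ : ℚ) (Δ : ℚ) := by
  intro h
  have h' : JRel c₄ Δ := by
    rcases h with h | h | h | h
    · left; exact_mod_cast h
    · right; left; exact_mod_cast h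
    · right; right; left; exact_mod_cast h
    · right; right; right; exact_mod_cast h
  have h5p : Prime (5 : ℤ) := by norm_num
  have key : (5 : ℤ) ∣ c₄ ∧ (5 : ℤ) ∣ Δ := by
    have hc : (5 : ℤ) ∣ c₄ := by
      rcases h' with h | h | h | h
      · have : (5 : ℤ) ∣ 2 * c₄ ^ 3 := ⟨-5 * Δ, by rw [h]; ring⟩
        rcases h5p.dvd_or_dvd this with h | h
        · exact absurd h (by decide)
        · exact h5p.dvd_of_dvd_pow h
      · have : (5 : ℤ) ∣ 8 * c₄ ^ 3 := ⟨-5 * 241 ^ 3 * Δ, by rw [h]; ring⟩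
        rcases h5p.dvd_or_dvd this with h | h
        · exact absurd h (by decide)
        · exact h5p.dvd_of_dvd_pow h
      · have : (5 : ℤ) ∣ 32 * c₄ ^ 3 := ⟨-29 ^ 3 * Δ, by rw [h]; ring⟩
        rcases h5p.dvd_or_dvd this with h | h
        · exact absurd h (by decide)
        · exact h5p.dvd_of_dvd_pow h
      · have : (5 : ℤ) ∣ 2 ^ 15 * c₄ ^ 3 := ⟨211 ^ 3 * Δ, by rw [h]; ring⟩
        rcases h5p.dvd_or_dvd this with h | h
        · exact absurd h (by decide)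
        · exact h5p.dvd_of_dvd_pow h
    refine ⟨hc, ?_⟩
    obtain ⟨e, he⟩ := hc
    rcases h' with h | h | h | h
    · rw [he] at h
      exact ⟨-2 * e ^ 3, by linarith⟩
    · rw [he] at h
      have : (5 : ℤ) ∣ 241 ^ 3 * Δ := ⟨-8 * e ^ 3, by linarith⟩
      rcases h5p.dvd_or_dvd this with h | h
      · exact absurd h (by decide)
      · exact h
    · rw [he] at h
      have : (5 : ℤ) ∣ 29 ^ 3 * Δ := ⟨-32 * 5 * e ^ 3, by linarith⟩
      rcases h5p.dvd_or_dvd this with h | h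
      · exact absurd h (by decide)
      · exact h
    · rw [he] at h
      have : (5 : ℤ) ∣ 211 ^ 3 * Δ := ⟨2 ^ 15 * 5 * e ^ 3, by linarith⟩
      rcases h5p.dvd_or_dvd this with h | h
      · exact absurd h (by decide)
      · exact h
  exact h5 key.2 key.1

end Fermat.Agent.S51Lib
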