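import Mathlib
import Fermat.Prelude.Def_FLTPrelim_GaloisRep
import Fermat.Agent.EllTorsion.Card
import Fermat.Agent.QbarInst
import Fermat.Agent.S51Lib.Algebra

/-!
# Point-level input: stable lines in `E[3]` and `E[5]`
-/

set_option autoImplicit false

open WeierstrassCurve WeierstrassCurve.Affine WeierstrassCurve.Affine.Point

namespace Fermat.Agent.S51Lib

section Doubling

variable {F : Type*} [Field F] [DecidableEq F] {W : WeierstrassCurve F}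

/-- The `x`-coordinate, with junk value `0` at infinity. -/
def xc : W.toAffine.Point → F
  | .zero => 0
  | .some x _ _ => x

omit [DecidableEq F] in
@[simp] lemma xc_some {x y : F} (h : W.toAffine.Nonsingular x y) :
    xc (Point.some x y h) = x := rfl

omit [DecidableEq F] in
@[simp] lemma xc_neg (P : W.toAffine.Point) : xc (-P) = xc P := by
  rcases P with _ | ⟨x, y, h⟩
  · rfl
  · rfl

omit [DecidableEq F] in
lemma eq_or_eq_neg_of_xc_eq {P Q : W.toAffine.Point} (hP : P ≠ 0) (hQ : Q ≠ 0)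
    (h : xc P = xc Q) : P = Q ∨ P = -Q := by
  rcases P with _ | ⟨x, y, hP'⟩
  · exact absurd rfl hP
  rcases Q with _ | ⟨x', y', hQ'⟩
  · exact absurd rfl hQ
  apply eq_or_eq_neg_of_xRep_eq_xRep
  simp only [xc_some] at h
  simp [h]

/-- The duplication formula. -/
lemma xc_add_self {P : W.toAffine.Point} (hP : P ≠ 0) (h2P : P + P ≠ 0) :
    xc (P + P) * (4 * xc P ^ 3 + W.b₂ * xc P ^ 2 + 2 * W.b₄ * xc P + W.b₆) =
      xc P ^ 4 - W.b₄ * xc P ^ 2 - 2 * W.b₆ * xc P - W.b₈ := by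
  rcases P with _ | ⟨x, y, h⟩
  · exact absurd rfl hP
  have hy : y ≠ W.toAffine.negY x y := by
    intro hy
    exact h2P (add_self_of_Y_eq hy)
  rw [add_self_of_Y_ne hy]
  simp only [xc_some]
  have heq := (W.toAffine.equation_iff x y).mp h.1
  have hD : y - W.toAffine.negY x y ≠ 0 := sub_ne_zero.mpr hy
  have hsl : W.toAffine.slope x x y y * (y - W.toAffine.negY x y) =
      3 * x ^ 2 + 2 * W.a₂ * x + W.a₄ - W.a₁ * y := by
    rw [slope_of_Y_ne rfl hy, div_mul_cancel₀ _ hD]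
  set ℓ := W.toAffine.slope x x y y with hℓ
  have hDe : y - W.toAffine.negY x y = 2 * y + W.a₁ * x + W.a₃ := by
    rw [negY]; ring
  rw [hDe] at hsl
  have hD2 : 4 * x ^ 3 + W.b₂ * x ^ 2 + 2 * W.b₄ * x + W.b₆ = (2 * y + W.a₁ * x + W.a₃) ^ 2 := by
    rw [b₂, b₄, b₆]; linear_combination (-4) * heq
  rw [hD2, addX, b₄, b₆, b₈]
  have e1 : (ℓ ^ 2 + W.a₁ * ℓ - W.a₂ - x - x) * (2 * y + W.a₁ * x + W.a₃) ^ 2 =
      (ℓ * (2 * y + W.a₁ * x + W.a₃)) ^ 2 + W.a₁ * (ℓ * (2 * y + W.a₁ * x + W.a₃)) *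
        (2 * y + W.a₁ * x + W.a₃) - (W.a₂ + 2 * x) * (2 * y + W.a₁ * x + W.a₃) ^ 2 := by ring
  rw [e1, hsl]
  linear_combination (-(W.a₁ ^ 2 + 4 * W.a₂ + 8 * x)) * heq

/-- A `3`-torsion point has `x`-coordinate a root of the `3`-division polynomial. -/
lemma three_torsion {P : W.toAffine.Point} (hP : P ≠ 0) (h3 : P + P = -P) :
    3 * xc P ^ 4 + W.b₂ * xc P ^ 3 + 3 * W.b₄ * xc P ^ 2 + 3 * W.b₆ * xc P + W.b₈ = 0 := by
  have h2P : P + P ≠ 0 := by rw [h3]; simpa using hP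
  have := xc_add_self hP h2P
  rw [h3, xc_neg] at this
  linear_combination this

end Doubling

section Torsion

open Module

variable (E : Affine ℚ)

local notation "Qb" => AlgebraicClosure ℚ

/-- `#E[p] = p²`, in the form `dim E[p] = 2`. -/
lemma finrank_torsionBy (hΔ : E.Δ ≠ 0) (p : ℕ) [hp : Fact p.Prime] :
    finrank (ZMod p) (Submodule.torsionBy ℤ (E⁄Qb).Point (p : ℤ)) = 2 := by
  have hE : E.IsElliptic := ⟨isUnit_iff_ne_zero.mpr hΔ⟩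
  have hE' : (E⁄Qb).IsElliptic :=
    (inferInstance : (WeierstrassCurve.map E (algebraMap ℚ Qb)).IsElliptic)
  have hc : Nat.card (Submodule.torsionBy ℤ (E⁄Qb).Point (p : ℤ)) = p ^ 2 := by
    have h := EllTorsion.card_nsmul_eq_zero (W := E⁄Qb) (n := p)
      (by exact_mod_cast hp.out.ne_zero)
    rw [← h]
    apply Nat.card_congr
    refine Equiv.subtypeEquivRight fun P => ?_
    rw [Submodule.mem_torsionBy_iff]
    simp
  have hfin : Finite (Submodule.torsionBy ℤ (E⁄Qb).Point (p : ℤ)) := by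
    apply Nat.finite_of_card_ne_zero
    rw [hc]; exact pow_ne_zero 2 hp.out.ne_zero
  have h2 := Module.natCard_eq_pow_finrank (K := ZMod p)
    (V := Submodule.torsionBy ℤ (E⁄Qb).Point (p : ℤ))
  rw [hc, Nat.card_zmod] at h2
  exact (Nat.pow_right_injective hp.out.two_le h2).symm

variable {E}

/-- A nontrivial proper subspace of `E[p]` is a line. -/
lemma exists_line (hΔ : E.Δ ≠ 0) (p : ℕ) [hp : Fact p.Prime]
    {N : Submodule (ZMod p) (Submodule.torsionBy ℤ (E⁄Qb).Point (p : ℤ))}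
    (hbot : N ≠ ⊥) (htop : N ≠ ⊤) :
    ∃ P ∈ N, P ≠ 0 ∧ ∀ Q ∈ N, ∃ c : ZMod p, c • P = Q := by
  have h2 := finrank_torsionBy E hΔ p
  have hfd : FiniteDimensional (ZMod p) (Submodule.torsionBy ℤ (E⁄Qb).Point (p : ℤ)) :=
    Module.finite_of_finrank_pos (by rw [h2]; norm_num)
  have hlt : finrank (ZMod p) N < 2 := by
    rw [← h2]; exact Submodule.finrank_lt htop
  have hpos : 0 < finrank (ZMod p) N := by
    rw [Nat.pos_iff_ne_zero]
    intro h0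
    exact hbot (Submodule.finrank_eq_zero.mp h0)
  have h1 : finrank (ZMod p) N = 1 := by omega
  obtain ⟨P, hP, hP0⟩ := (Submodule.ne_bot_iff N).mp hbot
  refine ⟨P, hP, hP0, fun Q hQ => ?_⟩
  have := (finrank_eq_one_iff_of_nonzero' (⟨P, hP⟩ : N) (by simpa using hP0)).mp h1 ⟨Q, hQ⟩
  obtain ⟨c, hc⟩ := this
  exact ⟨c, congrArg Subtype.val hc⟩

/-- An element of `Q̄` fixed by the Galois group is rational. -/
lemma exists_rat {x : Qb} (h : ∀ σ : Qb ≃ₐ[ℚ] Qb, σ x = x) : ∃ q : ℚ, algebraMap ℚ Qb q = x := by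
  exact (InfiniteGalois.mem_range_algebraMap_iff_fixed x).mpr h

lemma xc_smul (σ : Qb ≃ₐ[ℚ] Qb) (P : (E⁄Qb).Point) :
    xc (W := E⁄Qb) (σ • P) = σ (xc (W := E⁄Qb) P) := by
  rcases P with _ | ⟨x, y, h⟩
  · exact (map_zero σ).symm
  · rfl

lemma coe_smul (σ : Qb ≃ₐ[ℚ] Qb) {n : ℕ} (P : Submodule.torsionBy ℤ (E⁄Qb).Point (n : ℤ)) :
    ((σ • P : Submodule.torsionBy ℤ (E⁄Qb).Point (n : ℤ)) : (E⁄Qb).Point) =
      σ • (P : (E⁄Qb).Point) := rfl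

lemma nsmul_coe {n : ℕ} (P : Submodule.torsionBy ℤ (E⁄Qb).Point (n : ℤ)) :
    n • (P : (E⁄Qb).Point) = 0 := by
  have := (Submodule.mem_torsionBy_iff _ _).mp P.2
  rwa [natCast_zsmul] at this

/-- If `E[3]` has a stable line then the `3`-division polynomial has a rational root, which is
the `x`-coordinate of a `3`-torsion point. -/
lemma exists_rat_three (hΔ : E.Δ ≠ 0)
    {N : Submodule (ZMod 3) (Submodule.torsionBy ℤ (E⁄Qb).Point ((3 : ℕ) : ℤ))}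
    (hN : IsGaloisStable ℚ N) (hbot : N ≠ ⊥) (htop : N ≠ ⊤) :
    ∃ (x₀ : ℚ) (T : (E⁄Qb).Point), T ≠ 0 ∧ 3 • T = 0 ∧
      xc (W := E⁄Qb) T = algebraMap ℚ Qb x₀ := by
  obtain ⟨P, hP, hP0, hline⟩ := exists_line hΔ 3 hbot htop
  have hfix : ∀ σ : Qb ≃ₐ[ℚ] Qb, σ (xc (W := E⁄Qb) (P : (E⁄Qb).Point)) =
      xc (W := E⁄Qb) (P : (E⁄Qb).Point) := by
    intro σ
    obtain ⟨c, hc⟩ := hline (σ • P) (hN σ P hP)
    rw [← xc_smul, ← coe_smul, ← hc]
    have hc3 : c = 0 ∨ c = 1 ∨ c = -1 :=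
      (by decide : ∀ c : ZMod 3, c = 0 ∨ c = 1 ∨ c = -1) c
    rcases hc3 with h | h | h
    · exfalso
      rw [h, zero_smul] at hc
      apply hP0
      rw [← one_smul (Qb ≃ₐ[ℚ] Qb) P, ← inv_mul_cancel σ, mul_smul, ← hc, smul_zero]
    · rw [h, one_smul]
    · rw [h, neg_one_smul]
      exact xc_neg _
  obtain ⟨x₀, hx₀⟩ := exists_rat hfix
  exact ⟨x₀, P, by simpa using hP0, nsmul_coe P, hx₀.symm⟩

lemma xc_galois_line5 {P Q : (E⁄Qb).Point} (hQ : Q = P + P) (hP5 : Q + Q = -P)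
    (σ : Qb ≃ₐ[ℚ] Qb) (h : σ • P = P ∨ σ • P = -P ∨ σ • P = Q ∨ σ • P = -Q) :
    (σ (xc (W := E⁄Qb) P) = xc (W := E⁄Qb) P ∧ σ (xc (W := E⁄Qb) Q) = xc (W := E⁄Qb) Q) ∨
    (σ (xc (W := E⁄Qb) P) = xc (W := E⁄Qb) Q ∧ σ (xc (W := E⁄Qb) Q) = xc (W := E⁄Qb) P) := by
  have hσQ : σ • Q = σ • P + σ • P := by
    rw [hQ]; exact (Point.map (W' := E) σ.toAlgHom).map_add P P
  rw [← xc_smul, ← xc_smul]
  rcases h with h | h | h | h
  · left
    rw [hσQ, h, ← hQ]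
    exact ⟨rfl, rfl⟩
  · left
    rw [hσQ, h, ← neg_add, ← hQ, xc_neg, xc_neg]
    exact ⟨rfl, rfl⟩
  · right
    rw [hσQ, h, hP5, xc_neg]
    exact ⟨rfl, rfl⟩
  · right
    rw [hσQ, h, ← neg_add, hP5, neg_neg, xc_neg]
    exact ⟨rfl, rfl⟩

lemma zmod5_cases (c : ZMod 5) : c = 0 ∨ c = 1 ∨ c = -1 ∨ c = 1 + 1 ∨ c = -(1 + 1) := by
  revert c; decide

/-- If `E[5]` has a stable line then it has a point `P` with `x(P) + x(2P)` and `x(P) x(2P)`
rational. -/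
lemma exists_rat_five (hΔ : E.Δ ≠ 0)
    {N : Submodule (ZMod 5) (Submodule.torsionBy ℤ (E⁄Qb).Point ((5 : ℕ) : ℤ))}
    (hN : IsGaloisStable ℚ N) (hbot : N ≠ ⊥) (htop : N ≠ ⊤) :
    ∃ (s p : ℚ) (P : (E⁄Qb).Point), P ≠ 0 ∧ 5 • P = 0 ∧
      algebraMap ℚ Qb s = xc (W := E⁄Qb) P + xc (W := E⁄Qb) (P + P) ∧
      algebraMap ℚ Qb p = xc (W := E⁄Qb) P * xc (W := E⁄Qb) (P + P) := by
  have : Fact (Nat.Prime 5) := ⟨by norm_num⟩
  obtain ⟨P, hP, hP0, hline⟩ := exists_line hΔ 5 hbot htop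
  have h5 : 5 • (P : (E⁄Qb).Point) = 0 := nsmul_coe P
  have h4 : ((P : (E⁄Qb).Point) + P) + (P + P) = -P := by
    rw [eq_neg_iff_add_eq_zero, ← h5]; abel
  have hfix : ∀ σ : Qb ≃ₐ[ℚ] Qb,
      (σ (xc (W := E⁄Qb) P) = xc (W := E⁄Qb) P ∧
        σ (xc (W := E⁄Qb) (P + P)) = xc (W := E⁄Qb) (P + P)) ∨
      (σ (xc (W := E⁄Qb) P) = xc (W := E⁄Qb) (P + P) ∧
        σ (xc (W := E⁄Qb) (P + P)) = xc (W := E⁄Qb) P) := by
    intro σ
    refine xc_galois_line5 rfl h4 σ ?_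
    obtain ⟨c, hc⟩ := hline (σ • P) (hN σ P hP)
    rw [← coe_smul, ← hc]
    rcases zmod5_cases c with h | h | h | h | h
    · exfalso
      rw [h, zero_smul] at hc
      apply hP0
      rw [← one_smul (Qb ≃ₐ[ℚ] Qb) P, ← inv_mul_cancel σ, mul_smul, ← hc, smul_zero]
    · left; rw [h, one_smul]
    · right; left; rw [h, neg_one_smul]; rfl
    · right; right; left; rw [h, add_smul, one_smul]; rfl
    · right; right; right; rw [h, neg_smul, add_smul, one_smul]; rfl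
  obtain ⟨s, hs⟩ := exists_rat (x := xc (W := E⁄Qb) P + xc (W := E⁄Qb) (P + P)) (by
    intro σ
    rw [map_add]
    rcases hfix σ with ⟨h1, h2⟩ | ⟨h1, h2⟩
    · rw [h1, h2]
    · rw [h1, h2, add_comm])
  obtain ⟨p, hp⟩ := exists_rat (x := xc (W := E⁄Qb) P * xc (W := E⁄Qb) (P + P)) (by
    intro σ
    rw [map_mul]
    rcases hfix σ with ⟨h1, h2⟩ | ⟨h1, h2⟩
    · rw [h1, h2]
    · rw [h1, h2, mul_comm])
  exact ⟨s, p, P, by simpa using hP0, h5, hs, hp⟩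

/-- A curve with a rational `3`-isogeny and a rational `5`-isogeny has one of four
`j`-invariants. -/
theorem jrel_of_stable_lines (hΔ : E.Δ ≠ 0)
    {N₃ : Submodule (ZMod 3) (Submodule.torsionBy ℤ (E⁄Qb).Point ((3 : ℕ) : ℤ))}
    (h₃ : IsGaloisStable ℚ N₃) (hbot₃ : N₃ ≠ ⊥) (htop₃ : N₃ ≠ ⊤)
    {N₅ : Submodule (ZMod 5) (Submodule.torsionBy ℤ (E⁄Qb).Point ((5 : ℕ) : ℤ))}
    (h₅ : IsGaloisStable ℚ N₅) (hbot₅ : N₅ ≠ ⊥) (htop₅ : N₅ ≠ ⊤) :
    JRel E.c₄ E.Δ := by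
  obtain ⟨x₀, T, hT0, hT3, hTx⟩ := exists_rat_three hΔ h₃ hbot₃ htop₃
  obtain ⟨s, p, P, hP0, hP5, hs, hp⟩ := exists_rat_five hΔ h₅ hbot₅ htop₅
  set φ := algebraMap ℚ Qb with hφ
  have hb₂ : (E⁄Qb).b₂ = φ E.b₂ := WeierstrassCurve.map_b₂ E φ
  have hb₄ : (E⁄Qb).b₄ = φ E.b₄ := WeierstrassCurve.map_b₄ E φ
  have hb₆ : (E⁄Qb).b₆ = φ E.b₆ := WeierstrassCurve.map_b₆ E φ
  have hb₈ : (E⁄Qb).b₈ = φ E.b₈ := WeierstrassCurve.map_b₈ E φ
  have h4 : (P + P) + (P + P) = -P := by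
    rw [eq_neg_iff_add_eq_zero, ← hP5]; abel
  have hT3' : T + T = -T := by
    rw [eq_neg_iff_add_eq_zero, ← hT3]; abel
  have h2P0 : P + P ≠ 0 := by
    intro h
    rw [h, add_zero] at h4
    exact hP0 (neg_eq_zero.mp h4.symm)
  have h4P0 : (P + P) + (P + P) ≠ 0 := by rw [h4]; simpa using hP0
  -- `Q` killed by `3` and `5` vanishes
  have hkill : ∀ R : (E⁄Qb).Point, 3 • R = 0 → 5 • R = 0 → R = 0 := by
    intro R h3 h5
    have : R = 2 • (3 • R) - 5 • R := by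
      rw [← mul_nsmul, show 3 * 2 = 5 + 1 from rfl, add_nsmul, one_nsmul]; abel
    rw [this, h3, h5]; simp
  have h10 : xc (W := E⁄Qb) P ≠ φ x₀ := by
    intro h
    rw [← hTx] at h
    apply hP0
    rcases eq_or_eq_neg_of_xc_eq (W := E⁄Qb) hP0 hT0 h with h | h
    · exact hkill P (by rw [h]; exact hT3) hP5
    · exact hkill P (by rw [h, neg_nsmul, hT3, _root_.neg_zero]) hP5
  have h5Q : 5 • (P + P) = 0 := by rw [nsmul_add, hP5, add_zero]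
  have h20 : xc (W := E⁄Qb) (P + P) ≠ φ x₀ := by
    intro h
    rw [← hTx] at h
    apply h2P0
    rcases eq_or_eq_neg_of_xc_eq (W := E⁄Qb) h2P0 hT0 h with h | h
    · exact hkill _ (by rw [h]; exact hT3) h5Q
    · exact hkill _ (by rw [h, neg_nsmul, hT3, _root_.neg_zero]) h5Q
  have h12 : xc (W := E⁄Qb) P ≠ xc (W := E⁄Qb) (P + P) := by
    intro h
    apply hP0
    rcases eq_or_eq_neg_of_xc_eq (W := E⁄Qb) hP0 h2P0 h with h | h
    · simpa using h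
    · refine hkill P ?_ hP5
      have : 3 • P = P + (P + P) := by abel
      rw [this]
      nth_rewrite 1 [h]
      abel
  have e3 := three_torsion (W := E⁄Qb) hT0 hT3'
  rw [hTx, hb₂, hb₄, hb₆, hb₈] at e3
  have h3 : 3 * x₀ ^ 4 + E.b₂ * x₀ ^ 3 + 3 * E.b₄ * x₀ ^ 2 + 3 * E.b₆ * x₀ + E.b₈ = 0 := by
    apply φ.injective
    simpa only [map_add, map_mul, map_pow, map_ofNat, _root_.map_zero] using e3
  have hD1 := xc_add_self (W := E⁄Qb) hP0 h2P0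
  have hD2 := xc_add_self (W := E⁄Qb) h2P0 h4P0
  rw [h4, xc_neg] at hD2
  rw [hb₂, hb₄, hb₆, hb₈] at hD1 hD2
  exact jrel_of_isogenies E hΔ φ hs hp h3 h10 h20 h12 hD1 hD2

end Torsion

end Fermat.Agent.S51Lib
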